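import Fermat.Agent.CyclicCount.Main
import Fermat.Agent.MertensThird.Extreme
import Fermat.Agent.Root.SummaryTotientAlmostAll

/-!
# The normal orders of `φ (φ n) / φ n` and of `σ (φ n) / φ n`

For almost all `n ≤ N` every prime `≤ (log log N) ^ (1 - ε)` divides `φ n`, and the reciprocals of
its prime factors above `(log log N) ^ (1 + ε)` add up to `o (1)`; so by Mertens' third theorem
`φ (φ n) / φ n ~ exp (-γ) / log log log n`. Every fixed number divides almost all `φ n`, so that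
`σ (φ n) φ (φ n) / (φ n) ^ 2` is nearly `1` and `σ (φ n) / φ n ~ exp γ log log log n`.
-/

set_option autoImplicit false

noncomputable section

namespace FA.TotientIterates

open Finset Filter
open FA.ErdosKac (primesUpTo mem_primesUpTo loglog tendsto_loglog)
open FA.CarmichaelOrder (classRecip tendsto_loglogLog)
open FA.CyclicCount (powCut)
open scoped Topology

/-- `φ (φ n) / φ n`. -/
def totRatio (n : ℕ) : ℝ := (n.totient.totient : ℝ) / n.totient

/-- `σ (φ n) / φ n`. -/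
def sigRatio (n : ℕ) : ℝ := (∑ d ∈ n.totient.divisors, (d : ℝ)) / n.totient

/-- The sum of `1 / q` over the primes `q > z` dividing `φ n`. -/
def tailSum (z n : ℕ) : ℝ :=
  ∑ q ∈ n.totient.primeFactors.filter (fun q => z < q), (q : ℝ)⁻¹

theorem totRatio_eq {n : ℕ} (hn : 1 ≤ n) :
    totRatio n = ∏ q ∈ n.totient.primeFactors, (1 - (q : ℝ)⁻¹) := by
  have h : (0 : ℝ) < n.totient := Nat.cast_pos.2 (Nat.totient_pos.2 hn)
  rw [totRatio, FA.MertensThird.totient_eq_prod n.totient, mul_div_cancel_left₀]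
  exact h.ne'

theorem totRatio_bounds {n : ℕ} (hn : 1 ≤ n) (z : ℕ) :
    (∏ p ∈ primesUpTo z, (1 - (p : ℝ)⁻¹)) * (1 - tailSum z n) ≤ totRatio n ∧
    (primesUpTo z ⊆ n.totient.primeFactors →
      totRatio n ≤ ∏ p ∈ primesUpTo z, (1 - (p : ℝ)⁻¹)) := by
  rw [totRatio_eq hn]
  have h0 : ∀ q : ℕ, q.Prime → (0 : ℝ) ≤ 1 - (q : ℝ)⁻¹ ∧ 1 - (q : ℝ)⁻¹ ≤ 1 := fun q hq =>
    ⟨sub_nonneg.2 (inv_le_one_of_one_le₀ (Nat.one_le_cast.2 hq.one_le)),
      sub_le_self _ (by positivity)⟩
  have hpf : ∀ q ∈ n.totient.primeFactors, q.Prime := fun q hq => Nat.prime_of_mem_primeFactors hq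
  refine ⟨?_, fun hsub => ?_⟩
  · rw [← prod_filter_mul_prod_filter_not n.totient.primeFactors (fun q => z < q), mul_comm]
    have hP : ∏ p ∈ primesUpTo z, (1 - (p : ℝ)⁻¹) ≤
        ∏ q ∈ n.totient.primeFactors.filter (fun q => ¬z < q), (1 - (q : ℝ)⁻¹) := by
      have hsub : n.totient.primeFactors.filter (fun q => ¬z < q) ⊆ primesUpTo z := fun q hq =>
        mem_primesUpTo.2 ⟨hpf q (mem_filter.1 hq).1, not_lt.1 (mem_filter.1 hq).2⟩
      rw [← prod_sdiff hsub]
      exact mul_le_of_le_one_left (prod_nonneg fun q hq => (h0 q (hpf q (mem_filter.1 hq).1)).1)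
        (prod_le_one (fun q hq => (h0 q (mem_primesUpTo.1 (mem_sdiff.1 hq).1).1).1)
          fun q hq => (h0 q (mem_primesUpTo.1 (mem_sdiff.1 hq).1).1).2)
    refine le_trans (mul_le_mul_of_nonneg_right
      (FA.MertensThird.one_sub_sum_le_prod_one_sub _ (fun q _ => by positivity) fun q hq =>
        inv_le_one_of_one_le₀ (Nat.one_le_cast.2 (hpf q (mem_filter.1 hq).1).one_le))
      (prod_nonneg fun p hp => (h0 p (mem_primesUpTo.1 hp).1).1)) ?_
    exact mul_le_mul_of_nonneg_left hP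
      (prod_nonneg fun q hq => (h0 q (hpf q (mem_filter.1 hq).1)).1)
  · rw [← prod_sdiff hsub]
    exact mul_le_of_le_one_left (prod_nonneg fun p hp => (h0 p (mem_primesUpTo.1 hp).1).1)
      (prod_le_one (fun q hq => (h0 q (hpf q (mem_sdiff.1 hq).1)).1)
        fun q hq => (h0 q (hpf q (mem_sdiff.1 hq).1)).2)

theorem tendsto_prod_powCut {θ : ℝ} (hθ : 0 < θ) :
    Tendsto (fun N : ℕ => Real.log (loglog N) *
      ∏ p ∈ primesUpTo (powCut θ N), (1 - (p : ℝ)⁻¹)) atTop
      (𝓝 (Real.exp (-Real.eulerMascheroniConstant) / θ)) := by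
  refine ((FA.MertensThird.tendsto_log_mul_prod.comp (Real.tendsto_exp_atTop.comp
    (tendsto_loglogLog.const_mul_atTop hθ))).div_const θ).congr fun N => ?_
  simp only [Function.comp_apply, Real.log_exp, powCut]
  field_simp

/-- The mean of the tail. -/
theorem exists_sum_tailSum_le : ∃ C : ℝ, 0 ≤ C ∧ ∀ᶠ N : ℕ in atTop, ∀ z : ℕ,
    ∑ n ∈ Icc 1 N, tailSum z n ≤ C * N * (loglog N / ((z : ℝ) + 1) + 1 / Real.log N ^ 2) := by
  obtain ⟨C, hC, hcl⟩ := FA.CyclicCount.exists_sum_inv_classRecip_le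
  refine ⟨C + 2, by positivity, ?_⟩
  filter_upwards [hcl, tendsto_loglog.eventually_ge_atTop 1, eventually_ge_atTop 2]
    with N hcl hL hN z
  obtain ⟨P, hP⟩ : ∃ P, P = (primesUpTo N).filter fun q => z < q := ⟨_, rfl⟩
  obtain ⟨w, hw⟩ : ∃ w : ℕ → ℕ → ℝ, w = fun n q => (if q ^ 2 ∣ n then 1 else 0) +
      ∑ p ∈ (primesUpTo N).filter (fun p => q ∣ p - 1), if p ∣ n then (1 : ℝ) else 0 := ⟨_, rfl⟩
  have hw0 : ∀ n q, 0 ≤ w n q := fun n q => by
    rw [hw]
    exact add_nonneg (by split_ifs <;> norm_num) (sum_nonneg fun p _ => by split_ifs <;> norm_num)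
  have hle : ∀ n ∈ Icc 1 N, tailSum z n ≤ ∑ q ∈ P, (q : ℝ)⁻¹ * w n q := fun n hn => by
    obtain ⟨hn1, hnN⟩ := mem_Icc.1 hn
    have hmem : ∀ q ∈ n.totient.primeFactors.filter (fun q => z < q), q ∈ P ∧ 1 ≤ w n q := by
      intro q hq
      obtain ⟨hq, hz⟩ := mem_filter.1 hq
      obtain ⟨hqp, hqd, -⟩ := Nat.mem_primeFactors.1 hq
      refine ⟨hP ▸ mem_filter.2 ⟨mem_primesUpTo.2 ⟨hqp, (Nat.le_of_dvd (Nat.totient_pos.2 hn1)
        hqd).trans ((Nat.totient_le n).trans hnN)⟩, hz⟩, ?_⟩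
      rw [FA.OmegaPhi.totient_eq_prod (by omega)] at hqd
      obtain ⟨p, hp, hd⟩ := (hqp.prime.dvd_finsetProd_iff _).1 hqd
      obtain ⟨hpp, hpn, -⟩ := Nat.mem_primeFactors.1 hp
      have hsum0 : ∀ r : ℕ, (0 : ℝ) ≤ if r ∣ n then (1 : ℝ) else 0 := fun r => by
        split_ifs <;> norm_num
      rw [hw]
      rcases (Nat.Prime.dvd_mul hqp).1 hd with hd | hd
      · have hne : n.factorization p - 1 ≠ 0 := fun h0 => hqp.not_dvd_one (by rwa [h0] at hd)
        have hqp' : q = p := (Nat.prime_dvd_prime_iff_eq hqp hpp).1 (hqp.dvd_of_dvd_pow hd)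
        refine le_add_of_le_of_nonneg ?_ (sum_nonneg fun r _ => hsum0 r)
        rw [if_pos (hqp' ▸ (hpp.pow_dvd_iff_le_factorization (by omega)).2 (by omega))]
      · refine le_add_of_nonneg_of_le (hsum0 _) (le_trans ?_
          (single_le_sum (fun r _ => hsum0 r) (mem_filter.2 ⟨mem_primesUpTo.2
            ⟨hpp, (Nat.le_of_dvd hn1 hpn).trans hnN⟩, hd⟩)))
        rw [if_pos hpn]
    refine (sum_le_sum fun q hq => le_mul_of_one_le_right (by positivity) (hmem q hq).2).trans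
      (sum_le_sum_of_subset_of_nonneg (fun q hq => (hmem q hq).1)
        fun q _ _ => mul_nonneg (by positivity) (hw0 n q))
  refine (sum_le_sum hle).trans ?_
  rw [sum_comm]
  have hcount : ∀ q : ℕ, ∑ n ∈ Icc 1 N, w n q ≤ N * (((q : ℝ) ^ 2)⁻¹ + classRecip N q) :=
      fun q => by
    rw [hw, sum_add_distrib, mul_add, sum_comm, classRecip, mul_sum]
    refine add_le_add ?_ (sum_le_sum fun p _ => ?_) <;> rw [sum_boole]
    · exact (FA.CyclicCount.card_dvd_le N _).trans_eq (by push_cast; rfl)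
    · exact FA.CyclicCount.card_dvd_le N p
  refine (sum_le_sum fun q _ => (le_of_eq (mul_sum _ _ _).symm).trans
    (mul_le_mul_of_nonneg_left (hcount q) (by positivity))).trans ?_
  rw [sum_congr rfl fun (q : ℕ) _ => show (q : ℝ)⁻¹ * (N * (((q : ℝ) ^ 2)⁻¹ + classRecip N q)) =
    N * ((q : ℝ)⁻¹ * ((q : ℝ) ^ 2)⁻¹) + N * ((q : ℝ)⁻¹ * classRecip N q) by ring,
    sum_add_distrib, ← mul_sum, ← mul_sum]
  have h1 : ∑ q ∈ P, (q : ℝ)⁻¹ * ((q : ℝ) ^ 2)⁻¹ ≤ 2 * (loglog N / ((z : ℝ) + 1)) := by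
    refine le_trans ?_ ((hP ▸ FA.CyclicCount.sum_inv_sq_above_le N z).trans ?_)
    · exact sum_le_sum fun q _ =>
        mul_le_of_le_one_left (by positivity) (Nat.cast_inv_le_one q)
    · rw [mul_div_assoc']
      exact div_le_div_of_nonneg_right (by linarith) (by positivity)
  have h2 := mul_le_mul_of_nonneg_left h1 (Nat.cast_nonneg N)
  have h3 := mul_le_mul_of_nonneg_left (hP ▸ hcl z) (Nat.cast_nonneg N)
  have h4 : 0 ≤ (N : ℝ) * (1 / Real.log N ^ 2) := by positivity
  linarith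

/-- **Above `(1 - δ) exp (-γ)`**, for almost all `n`. -/
theorem tendsto_small {a : ℝ} (ha : a < Real.exp (-Real.eulerMascheroniConstant)) :
    Tendsto (fun N : ℕ => (((Icc 1 N).filter fun n =>
      totRatio n * Real.log (loglog N) ≤ a).card : ℝ) / N) atTop (𝓝 0) := by
  obtain ⟨c, hc⟩ : ∃ c, c = Real.exp (-Real.eulerMascheroniConstant) := ⟨_, rfl⟩
  rw [← hc] at ha
  have hcont : ContinuousAt (fun t : ℝ => c / (1 + t) * (1 - t)) 0 :=
    (continuousAt_const.div (continuousAt_const.add continuousAt_id) (by norm_num)).mul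
      (continuousAt_const.sub continuousAt_id)
  obtain ⟨t, ⟨ht, ht1⟩, ht0⟩ := (((hcont.eventually_const_lt (by simpa using ha)).and
    (eventually_lt_nhds (show (0 : ℝ) < 1 by norm_num))).filter_mono nhdsWithin_le_nhds
      |>.and (self_mem_nhdsWithin (a := (0 : ℝ)) (s := Set.Ioi 0))).exists
  have ht0' : 0 < t := ht0
  obtain ⟨C, hC, hsum⟩ := exists_sum_tailSum_le
  have hg : Tendsto (fun N : ℕ => C / t * (Real.exp (-(t * Real.log (loglog N))) +
      Real.exp (-loglog N))) atTop (𝓝 0) := by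
    simpa [Function.comp_def] using ((Real.tendsto_exp_neg_atTop_nhds_zero.comp
      (tendsto_loglogLog.const_mul_atTop ht0')).add
        (Real.tendsto_exp_neg_atTop_nhds_zero.comp tendsto_loglog)).const_mul (C / t)
  refine squeeze_zero' (Eventually.of_forall fun N => by positivity) ?_ hg
  filter_upwards [((tendsto_prod_powCut (show 0 < 1 + t by linarith)).mul_const
      (1 - t)).eventually_const_lt (hc ▸ ht), hsum, tendsto_loglog.eventually_ge_atTop 1,
    eventually_ge_atTop 2] with N hprod hsum hL hN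
  obtain ⟨z, hz⟩ : ∃ z, z = powCut (1 + t) N := ⟨_, rfl⟩
  rw [← hz] at hprod
  have hK0 : 0 ≤ Real.log (loglog N) := Real.log_nonneg hL
  have hN0 : (0 : ℝ) < N := Nat.cast_pos.2 (by omega)
  have hsub : ((Icc 1 N).filter fun n => totRatio n * Real.log (loglog N) ≤ a) ⊆
      (Icc 1 N).filter fun n => t ≤ tailSum z n := fun n hn => by
    obtain ⟨hn, hna⟩ := mem_filter.1 hn
    refine mem_filter.2 ⟨hn, le_of_lt (lt_of_not_ge fun hle => ?_)⟩
    have h1 := mul_le_mul_of_nonneg_right (((mul_le_mul_of_nonneg_left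
      (show 1 - t ≤ 1 - tailSum z n by linarith) (prod_nonneg fun p hp => sub_nonneg.2
        (inv_le_one_of_one_le₀ (Nat.one_le_cast.2 (mem_primesUpTo.1 hp).1.one_le)))).trans
          (totRatio_bounds (mem_Icc.1 hn).1 z).1)) hK0
    linarith
  have hcard : (((Icc 1 N).filter fun n => t ≤ tailSum z n).card : ℝ) * t ≤
      C * N * (loglog N / ((z : ℝ) + 1) + 1 / Real.log N ^ 2) := by
    refine le_trans ?_ ((sum_le_sum_of_subset_of_nonneg (filter_subset (fun n => t ≤ tailSum z n) _)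
      fun n _ _ => sum_nonneg fun q _ => by positivity).trans (hsum z))
    rw [← nsmul_eq_mul]
    exact card_nsmul_le_sum _ _ _ fun n hn => (mem_filter.1 hn).2
  rw [div_le_iff₀ hN0]
  refine (Nat.cast_le.2 (card_le_card hsub)).trans ?_
  rw [← mul_le_mul_iff_of_pos_right ht0']
  refine hcard.trans ?_
  rw [show C / t * (Real.exp (-(t * Real.log (loglog N))) + Real.exp (-loglog N)) * N * t =
    C * N * (Real.exp (-(t * Real.log (loglog N))) + Real.exp (-loglog N)) by field_simp]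
  refine mul_le_mul_of_nonneg_left (add_le_add ?_ ?_) (by positivity)
  · rw [div_le_iff₀ (by positivity), hz]
    refine le_trans (le_of_eq ?_) (mul_le_mul_of_nonneg_left
      (Nat.lt_floor_add_one (Real.exp ((1 + t) * Real.log (loglog N)))).le (Real.exp_nonneg _))
    rw [← Real.exp_add, show -(t * Real.log (loglog N)) + (1 + t) * Real.log (loglog N) =
      Real.log (loglog N) by ring, Real.exp_log (by linarith)]
  · have hl : 1 ≤ Real.log N := by
      by_contra hlt
      have := Real.log_nonpos (Real.log_natCast_nonneg N) (not_le.1 hlt).le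
      rw [loglog] at hL
      linarith
    rw [Real.exp_neg, loglog, Real.exp_log (by linarith), ← one_div]
    exact one_div_le_one_div_of_le (by linarith) (le_self_pow₀ hl two_ne_zero)

/-- **Below `(1 + δ) exp (-γ)`**, for almost all `n`. -/
theorem tendsto_large {b : ℝ} (hb : Real.exp (-Real.eulerMascheroniConstant) < b) :
    Tendsto (fun N : ℕ => (((Icc 1 N).filter fun n =>
      b ≤ totRatio n * Real.log (loglog N)).card : ℝ) / N) atTop (𝓝 0) := by
  obtain ⟨c, hc⟩ : ∃ c, c = Real.exp (-Real.eulerMascheroniConstant) := ⟨_, rfl⟩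
  rw [← hc] at hb
  have hcont : ContinuousAt (fun θ : ℝ => c / θ) 1 :=
    continuousAt_const.div continuousAt_id one_ne_zero
  obtain ⟨θ, ⟨hθ, hθ0⟩, hθ1⟩ := (((hcont.eventually_lt_const (by simpa using hb)).and
    (eventually_gt_nhds (show (0 : ℝ) < 1 by norm_num))).filter_mono nhdsWithin_le_nhds
      |>.and (self_mem_nhdsWithin (a := (1 : ℝ)) (s := Set.Iio 1))).exists
  have hθ1' : θ < 1 := hθ1
  obtain ⟨C, hC, hno⟩ := FA.CyclicCount.exists_no_class_le
  have hε : 0 < 1 - θ := sub_pos.2 hθ1'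
  have hg : Tendsto (fun N : ℕ => C * (loglog N * Real.exp (-(1 / 4) * loglog N ^ (1 - θ))))
      atTop (𝓝 0) := by
    have h2 := ((tendsto_rpow_mul_exp_neg_mul_atTop_nhds_zero (1 / (1 - θ)) (1 / 4)
      (by norm_num)).comp ((tendsto_rpow_atTop hε).comp tendsto_loglog)).const_mul C
    rw [mul_zero] at h2
    refine h2.congr' ?_
    filter_upwards [tendsto_loglog.eventually_ge_atTop 0] with N hL
    simp only [Function.comp_apply]
    rw [← Real.rpow_mul hL, mul_div_cancel₀ _ hε.ne', Real.rpow_one]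
  refine squeeze_zero' (Eventually.of_forall fun N => by positivity) ?_ hg
  filter_upwards [(tendsto_prod_powCut hθ0).eventually_lt_const (hc ▸ hθ), hno,
    tendsto_loglog.eventually_ge_atTop 1, eventually_ge_atTop 2] with N hprod hno hL hN
  obtain ⟨L, hLdef⟩ : ∃ L, L = loglog N := ⟨_, rfl⟩
  rw [← hLdef] at hprod hno hL ⊢
  obtain ⟨z, hz⟩ : ∃ z, z = powCut θ N := ⟨_, rfl⟩
  rw [← hz] at hprod
  have hzθ : (z : ℝ) ≤ L ^ θ := by
    rw [hz, Real.rpow_def_of_pos (by linarith), mul_comm (Real.log L), powCut, ← hLdef]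
    exact Nat.floor_le (Real.exp_nonneg _)
  have hθL : L ^ θ ≤ L := by simpa using Real.rpow_le_rpow_of_exponent_le hL hθ1'.le
  have hsub : ((Icc 1 N).filter fun n => b ≤ totRatio n * Real.log L) ⊆
      (primesUpTo z).biUnion fun p =>
        (Icc 1 N).filter fun n => ∀ q ∈ n.primeFactors, ¬p ∣ q - 1 := fun n hn => by
    obtain ⟨hn, hnb⟩ := mem_filter.1 hn
    by_contra hnot
    have hall : primesUpTo z ⊆ n.totient.primeFactors := fun p hp => by
      obtain ⟨q, hq, hpq⟩ : ∃ q ∈ n.primeFactors, p ∣ q - 1 := by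
        by_contra hex
        exact hnot (mem_biUnion.2 ⟨p, hp, mem_filter.2 ⟨hn, fun q hq hpq => hex ⟨q, hq, hpq⟩⟩⟩)
      obtain ⟨hqp, hqn, -⟩ := Nat.mem_primeFactors.1 hq
      exact Nat.mem_primeFactors.2 ⟨(mem_primesUpTo.1 hp).1,
        hpq.trans (Nat.totient_prime hqp ▸ Nat.totient_dvd_of_dvd hqn),
        (Nat.totient_pos.2 (mem_Icc.1 hn).1).ne'⟩
    have := mul_le_mul_of_nonneg_right ((totRatio_bounds (mem_Icc.1 hn).1 z).2 hall)
      (Real.log_nonneg hL)
    linarith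
  rw [div_le_iff₀ (Nat.cast_pos.2 (by omega))]
  refine (Nat.cast_le.2 ((card_le_card hsub).trans card_biUnion_le)).trans ?_
  rw [Nat.cast_sum]
  refine (sum_le_card_nsmul _ _ (C * N * Real.exp (-(1 / 4) * L ^ (1 - θ))) fun p hp => ?_).trans ?_
  · obtain ⟨hpp, hpz⟩ := mem_primesUpTo.1 hp
    have hpθ : (p : ℝ) ≤ L ^ θ := (Nat.cast_le.2 hpz).trans hzθ
    refine (hno p hpp (hpθ.trans hθL)).trans (mul_le_mul_of_nonneg_left
      (Real.exp_le_exp.2 ?_) (by positivity))
    have hp0 : (0 : ℝ) < p := Nat.cast_pos.2 hpp.pos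
    rw [neg_mul, neg_le_neg_iff, Real.rpow_sub (by linarith), Real.rpow_one,
      show (1 / 4 : ℝ) * (L / L ^ θ) = L / (4 * L ^ θ) by ring]
    exact div_le_div_of_nonneg_left (by linarith) (by positivity)
      (mul_le_mul_of_nonneg_left hpθ (by norm_num))
  · rw [nsmul_eq_mul, show C * (L * Real.exp (-(1 / 4) * L ^ (1 - θ))) * N =
      L * (C * N * Real.exp (-(1 / 4) * L ^ (1 - θ))) by ring]
    refine mul_le_mul_of_nonneg_right (le_trans ?_ (hzθ.trans hθL)) (by positivity)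
    exact Nat.cast_le.2 ((card_le_card (t := Icc 1 z) fun p hp => mem_Icc.2
      ⟨(mem_primesUpTo.1 hp).1.one_le, (mem_primesUpTo.1 hp).2⟩).trans (by simp))

/-- **The normal order of `φ (φ n) / φ n`.** -/
theorem tendsto_totRatio_abnormal {η : ℝ} (hη : 0 < η) :
    Tendsto (fun N : ℕ => (((Icc 1 N).filter fun n => η ≤
      |totRatio n * Real.log (loglog n) -
        Real.exp (-Real.eulerMascheroniConstant)|).card : ℝ) / N) atTop (𝓝 0) := by
  obtain ⟨c, hc⟩ : ∃ c, c = Real.exp (-Real.eulerMascheroniConstant) := ⟨_, rfl⟩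
  have hc0 : 0 < c := hc ▸ Real.exp_pos _
  rw [← hc]
  have hg := ((tendsto_small (a := c - η / 2) (by rw [← hc]; linarith)).add
    (tendsto_large (b := c + η / 2) (by rw [← hc]; linarith))).add (show Tendsto
      (fun N : ℕ => (Real.sqrt N)⁻¹) atTop (𝓝 0) from tendsto_inv_atTop_zero.comp
        (Real.tendsto_sqrt_atTop.comp tendsto_natCast_atTop_atTop))
  rw [add_zero, add_zero] at hg
  refine squeeze_zero' (Eventually.of_forall fun N => by positivity) ?_ hg
  filter_upwards [tendsto_loglog.eventually_ge_atTop 2,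
    tendsto_loglogLog.eventually_gt_atTop ((c + η / 2) / (η / 2)),
    eventually_ge_atTop 2] with N hL hK hN
  obtain ⟨K, hKdef⟩ : ∃ K, K = Real.log (loglog N) := ⟨_, rfl⟩
  rw [← hKdef] at hK ⊢
  have hN0 : (0 : ℝ) < N := Nat.cast_pos.2 (by omega)
  rw [← mul_le_mul_iff_of_pos_right hN0, div_mul_cancel₀ _ hN0.ne', add_mul, add_mul,
    div_mul_cancel₀ _ hN0.ne', div_mul_cancel₀ _ hN0.ne']
  have hsq : (Nat.sqrt N : ℝ) ≤ (Real.sqrt N)⁻¹ * N := by
    rw [← div_eq_inv_mul, Real.div_sqrt]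
    exact Real.nat_sqrt_le_real_sqrt
  have hsub : ((Icc 1 N).filter fun n => η ≤ |totRatio n * Real.log (loglog n) - c|) ⊆
      (((Icc 1 N).filter fun n => totRatio n * K ≤ c - η / 2) ∪
        ((Icc 1 N).filter fun n => c + η / 2 ≤ totRatio n * K)) ∪ Icc 1 (Nat.sqrt N) :=
    fun n hn => by
    obtain ⟨hn, hab⟩ := mem_filter.1 hn
    obtain ⟨hn1, hnN⟩ := mem_Icc.1 hn
    simp only [mem_union, mem_filter, mem_Icc]
    by_contra hnot
    push Not at hnot
    obtain ⟨⟨ha, hb⟩, hs⟩ := hnot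
    specialize ha ⟨hn1, hnN⟩
    specialize hb ⟨hn1, hnN⟩
    have hn2 : 2 ≤ n := by
      have h1 := hs hn1
      have h2 : 1 ≤ Nat.sqrt N := Nat.le_sqrt.2 (by omega)
      omega
    obtain ⟨h1, h2⟩ := FA.ShiftedPrimeOmega.abs_loglog_sub_le hnN (hs hn1) hn2
    have hln : 0 < loglog n := by linarith
    have hKn : Real.log (loglog n) ≤ K := hKdef ▸ Real.log_le_log hln (by linarith)
    have hKn' : K - 1 ≤ Real.log (loglog n) := by
      have h3 := Real.log_le_log (show 0 < loglog N by linarith)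
        (show loglog N ≤ 2 * loglog n by linarith)
      rw [Real.log_mul two_ne_zero hln.ne', ← hKdef] at h3
      linarith [Real.log_two_lt_d9]
    have hr0 : 0 ≤ totRatio n := div_nonneg (Nat.cast_nonneg _) (Nat.cast_nonneg _)
    have hsmall : totRatio n < η / 2 := by
      by_contra hge
      have h3 := mul_le_mul_of_nonneg_right (not_lt.1 hge)
        (show 0 ≤ K by linarith [show 0 < (c + η / 2) / (η / 2) by positivity])
      rw [div_lt_iff₀ (half_pos hη)] at hK
      linarith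
    have h4 := mul_le_mul_of_nonneg_left hKn hr0
    have h5 := mul_le_mul_of_nonneg_left hKn' hr0
    rcases le_abs.1 hab with h | h <;> linarith
  refine (Nat.cast_le.2 ((card_le_card hsub).trans ((card_union_le _ _).trans
    (Nat.add_le_add (card_union_le _ _) le_rfl)))).trans ?_
  rw [Nat.cast_add, Nat.cast_add, Nat.card_Icc, Nat.add_sub_cancel]
  linarith

/-- `σ m φ m ≥ m² (1 - ∑_{q ∣ m} q ^ (-1 - v_q m))`. -/
theorem le_sum_divisors_mul_totient {m : ℕ} (hm : m ≠ 0) :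
    (m : ℝ) ^ 2 * (1 - ∑ q ∈ m.primeFactors, ((q : ℝ)⁻¹) ^ (m.factorization q + 1)) ≤
      (∑ d ∈ m.divisors, (d : ℝ)) * m.totient := by
  have hsig : (∑ d ∈ m.divisors, (d : ℝ)) =
      ∏ p ∈ m.primeFactors, ∑ i ∈ range (m.factorization p + 1), (p : ℝ) ^ i := by
    rw [← Nat.cast_sum, Nat.sum_divisors hm]
    push_cast
    rfl
  have hpow : (m : ℝ) = ∏ p ∈ m.primeFactors, (p : ℝ) ^ m.factorization p := by
    exact_mod_cast congrArg (Nat.cast : ℕ → ℝ) (Nat.prod_factorization_pow_eq_self hm).symm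
  have hterm : ∀ p ∈ m.primeFactors, (∑ i ∈ range (m.factorization p + 1), (p : ℝ) ^ i) *
      (1 - (p : ℝ)⁻¹) =
        (p : ℝ) ^ m.factorization p * (1 - ((p : ℝ)⁻¹) ^ (m.factorization p + 1)) := fun p hp => by
    have hp0 : (p : ℝ) ≠ 0 := Nat.cast_ne_zero.2 (Nat.prime_of_mem_primeFactors hp).ne_zero
    refine mul_left_cancel₀ hp0 ?_
    rw [mul_left_comm, mul_sub, mul_inv_cancel₀ hp0, mul_one, geom_sum_mul, inv_pow]
    field_simp
    ring
  rw [FA.MertensThird.totient_eq_prod, ← mul_assoc, mul_comm _ (m : ℝ), mul_assoc, sq, mul_assoc,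
    hsig, ← prod_mul_distrib, prod_congr rfl hterm, prod_mul_distrib, ← hpow]
  refine mul_le_mul_of_nonneg_left (mul_le_mul_of_nonneg_left
    (FA.MertensThird.one_sub_sum_le_prod_one_sub _ (fun p _ => by positivity) fun p hp =>
      pow_le_one₀ (by positivity) (Nat.cast_inv_le_one p)) (Nat.cast_nonneg m)) (Nat.cast_nonneg m)

/-- A fixed modulus makes `σ m φ m` nearly `m²`. -/
theorem exists_modulus {η : ℝ} (hη : 0 < η) : ∃ M : ℕ, 0 < M ∧ ∀ m : ℕ, m ≠ 0 → M ∣ m →
    (m : ℝ) ^ 2 * (1 - η) ≤ (∑ d ∈ m.divisors, (d : ℝ)) * m.totient := by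
  obtain ⟨Q, hQ⟩ : ∃ Q : ℕ, Q = ⌈4 / η⌉₊ := ⟨_, rfl⟩
  obtain ⟨A, hA⟩ := exists_pow_lt_of_lt_one (show 0 < η / (2 * (Q + 1)) by positivity)
    (show (1 / 2 : ℝ) < 1 by norm_num)
  refine ⟨Q.factorial ^ A, pow_pos Q.factorial_pos A, fun m hm hMm => ?_⟩
  refine le_trans (mul_le_mul_of_nonneg_left (sub_le_sub_left ?_ 1) (sq_nonneg _))
    (le_sum_divisors_mul_totient hm)
  rw [← sum_filter_add_sum_filter_not m.primeFactors (fun q => q ≤ Q)]
  have h1 : ∑ q ∈ m.primeFactors.filter (fun q => q ≤ Q),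
      ((q : ℝ)⁻¹) ^ (m.factorization q + 1) ≤ η / 2 := by
    refine (sum_le_card_nsmul _ _ ((1 / 2 : ℝ) ^ A) fun q hq => ?_).trans ?_
    · obtain ⟨hq, hqQ⟩ := mem_filter.1 hq
      have hqp := Nat.prime_of_mem_primeFactors hq
      have hv : A ≤ m.factorization q := (hqp.pow_dvd_iff_le_factorization hm).1
        ((pow_dvd_pow_of_dvd (Nat.dvd_factorial hqp.pos hqQ) A).trans hMm)
      refine (pow_le_pow_left₀ (by positivity) ?_ _).trans
        (pow_le_pow_of_le_one (by norm_num) (by norm_num) (by omega))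
      rw [one_div]
      exact inv_anti₀ two_pos (Nat.ofNat_le_cast.2 hqp.two_le)
    · rw [nsmul_eq_mul]
      refine (mul_le_mul (b := (Q : ℝ) + 1) ?_ hA.le (by positivity) (by positivity)).trans
        (le_of_eq (by field_simp))
      refine (Nat.cast_le.2 ((card_le_card (t := range (Q + 1)) fun q hq =>
        mem_range.2 (Nat.lt_succ_of_le (mem_filter.1 hq).2)).trans_eq (card_range _))).trans_eq ?_
      push_cast
      rfl
  have h2 : ∑ q ∈ m.primeFactors.filter (fun q => ¬q ≤ Q),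
      ((q : ℝ)⁻¹) ^ (m.factorization q + 1) ≤ η / 2 := by
    refine (sum_le_sum (g := fun q : ℕ => ((q : ℝ) ^ 2)⁻¹) fun q hq => ?_).trans ?_
    · rw [← inv_pow (q : ℝ) 2]
      exact pow_le_pow_of_le_one (by positivity) (Nat.cast_inv_le_one q)
        (Nat.succ_le_succ (FA.OmegaPhi.one_le_factorization (mem_filter.1 hq).1))
    refine (sum_le_sum_of_subset_of_nonneg (t := Ioo Q (m + 1)) (fun q hq => ?_)
      fun _ _ _ => by positivity).trans ((sum_Ioo_inv_sq_le Q (m + 1)).trans ?_)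
    · exact mem_Ioo.2 ⟨not_le.1 (mem_filter.1 hq).2,
        Nat.lt_succ_of_le (Nat.le_of_mem_primeFactors (mem_filter.1 hq).1)⟩
    · have h := Nat.le_ceil (4 / η)
      rw [← hQ, div_le_iff₀ hη] at h
      rw [div_le_iff₀ (by positivity)]
      linarith
  linarith

/-- **The normal order of `σ (φ n) / φ n`.** -/
theorem tendsto_sigRatio_abnormal {ε : ℝ} (hε : 0 < ε) :
    Tendsto (fun N : ℕ => (((Icc 1 N).filter fun n => ε ≤
      |sigRatio n / Real.log (loglog n) -
        Real.exp Real.eulerMascheroniConstant|).card : ℝ) / N) atTop (𝓝 0) := by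
  obtain ⟨c, hc⟩ : ∃ c, c = Real.exp (-Real.eulerMascheroniConstant) := ⟨_, rfl⟩
  have hc0 : 0 < c := hc ▸ Real.exp_pos _
  have he : Real.exp Real.eulerMascheroniConstant = c⁻¹ := by rw [hc, Real.exp_neg, inv_inv]
  rw [he]
  have h1 : ContinuousAt (fun t : ℝ => (1 - t) / (c + t)) 0 :=
    (continuousAt_const.sub continuousAt_id).div (continuousAt_const.add continuousAt_id)
      (by simpa using hc0.ne')
  have h2 : ContinuousAt (fun t : ℝ => 1 / (c - t)) 0 :=
    continuousAt_const.div (continuousAt_const.sub continuousAt_id) (by simpa using hc0.ne')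
  obtain ⟨t, ⟨⟨hlo, hhi⟩, htc⟩, ht0⟩ := ((((h1.eventually_const_lt
    (u := c⁻¹ - ε) (by simpa using hε)).and
      (h2.eventually_lt_const (u := c⁻¹ + ε) (by simpa using hε))).and
        (eventually_lt_nhds hc0)).filter_mono nhdsWithin_le_nhds
          |>.and (self_mem_nhdsWithin (a := (0 : ℝ)) (s := Set.Ioi 0))).exists
  have ht0' : 0 < t := ht0
  obtain ⟨M, hM0, hM⟩ := exists_modulus ht0'
  have hM' : Tendsto (fun N : ℕ => (((Icc 1 N).filter fun n => ¬M ∣ n.totient).card : ℝ) / N)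
      atTop (𝓝 0) := by
    have h := ((FA.Summary.totient_dvd_almostAll hM0).add tendsto_one_div_atTop_nhds_zero_nat)
    rw [add_zero] at h
    refine squeeze_zero' (Eventually.of_forall fun N => by positivity)
      (Eventually.of_forall fun N => ?_) h
    rw [← add_div]
    refine div_le_div_of_nonneg_right ?_ (Nat.cast_nonneg N)
    rw [Nat.subtype_card ((range N).filter fun n => ¬M ∣ n.totient)
      fun n => by simp only [mem_filter, mem_range]]
    refine le_trans (Nat.cast_le.2 ((card_le_card (t := insert N ((range N).filter fun n =>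
      ¬M ∣ n.totient)) fun n hn => ?_).trans (card_insert_le _ _))) (by push_cast; rfl)
    obtain ⟨hn, hd⟩ := mem_filter.1 hn
    rcases (mem_Icc.1 hn).2.eq_or_lt with h | h
    · exact mem_insert.2 (Or.inl h)
    · exact mem_insert_of_mem (mem_filter.2 ⟨mem_range.2 h, hd⟩)
  have hg := (tendsto_totRatio_abnormal ht0').add hM'
  rw [add_zero, ← hc] at hg
  refine squeeze_zero' (Eventually.of_forall fun N => by positivity)
    (Eventually.of_forall fun N => ?_) hg
  rw [← add_div]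
  refine div_le_div_of_nonneg_right (le_trans (Nat.cast_le.2 ((card_le_card fun n hn => ?_).trans
    (card_union_le _ _))) (le_of_eq (Nat.cast_add _ _))) (Nat.cast_nonneg N)
  obtain ⟨hn, hab⟩ := mem_filter.1 hn
  by_contra hnot
  rw [mem_union, mem_filter, mem_filter] at hnot
  push Not at hnot
  obtain ⟨hA, hB⟩ := hnot
  specialize hA hn
  specialize hB hn
  obtain ⟨m, hm⟩ : ∃ m, m = n.totient := ⟨_, rfl⟩
  obtain ⟨S, hS⟩ : ∃ S : ℝ, S = ∑ d ∈ m.divisors, (d : ℝ) := ⟨_, rfl⟩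
  have hm0 : m ≠ 0 := hm ▸ (Nat.totient_pos.2 (mem_Icc.1 hn).1).ne'
  have hm0' : (0 : ℝ) < m := Nat.cast_pos.2 (Nat.pos_of_ne_zero hm0)
  have hφ : (0 : ℝ) < m.totient := Nat.cast_pos.2 (Nat.totient_pos.2 (Nat.pos_of_ne_zero hm0))
  have hlow := hM m hm0 (hm ▸ hB)
  have hupp := FA.MertensThird.sum_divisors_mul_totient_le m
  rw [← hS] at hlow hupp
  rw [sigRatio, ← hm, ← hS] at hab
  rw [totRatio, ← hm, abs_lt] at hA
  obtain ⟨K, hK⟩ : ∃ K, K = Real.log (loglog n) := ⟨_, rfl⟩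
  rw [← hK] at hA hab
  obtain ⟨hA1, hA2⟩ := hA
  rw [neg_lt_sub_iff_lt_add, div_mul_eq_mul_div, ← sub_lt_iff_lt_add', lt_div_iff₀ hm0'] at hA1
  rw [sub_lt_iff_lt_add, div_mul_eq_mul_div, div_lt_iff₀ hm0'] at hA2
  have hK0 : 0 < K := by
    by_contra hle
    have h3 := mul_nonpos_of_nonneg_of_nonpos hφ.le (not_lt.1 hle)
    have h4 : 0 < (c - t) * m := mul_pos (sub_pos.2 htc) hm0'
    linarith
  rw [div_div, le_abs] at hab
  have hmK : 0 < (m : ℝ) * K := mul_pos hm0' hK0
  rcases hab with h | h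
  · rw [le_sub_iff_add_le, le_div_iff₀ hmK] at h
    rw [div_lt_iff₀ (sub_pos.2 htc)] at hhi
    have h5 := mul_le_mul_of_nonneg_right (show 1 / (c - t) ≤ c⁻¹ + ε by
      rw [div_le_iff₀ (sub_pos.2 htc)]; linarith) hmK.le
    have h6 : S * ((c - t) * m) ≤ S * (m.totient * K) :=
      mul_le_mul_of_nonneg_left hA1.le (hS ▸ sum_nonneg fun d _ => Nat.cast_nonneg d)
    have h7 := mul_le_mul_of_nonneg_right hupp hK0.le
    have h8 := mul_le_mul_of_nonneg_right h (mul_nonneg (sub_pos.2 htc).le hm0'.le)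
    have h9 := mul_lt_mul_of_pos_right hhi (mul_pos hmK hm0')
    linarith
  · rw [neg_sub, le_sub_comm, div_le_iff₀ hmK] at h
    rw [lt_div_iff₀ (by linarith)] at hlo
    have h6 : S * (m.totient * K) ≤ S * ((c + t) * m) :=
      mul_le_mul_of_nonneg_left (by linarith) (hS ▸ sum_nonneg fun d _ => Nat.cast_nonneg d)
    have h7 := mul_le_mul_of_nonneg_right hlow hK0.le
    have h8 := mul_le_mul_of_nonneg_right h (mul_nonneg (show 0 ≤ c + t by linarith) hm0'.le)
    have h9 := mul_lt_mul_of_pos_right hlo (mul_pos hmK hm0')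
    linarith

end FA.TotientIterates

end
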